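import Fermat.Agent.S55.PT.T2aH299.Base
import Fermat.Agent.S55.PT.SpecT
import Fermat.Agent.S55.Bridge.DualTwist

/-!
# S55 / layer D, leaf D-T2a: `TopLocDevSpec`

`theorem topLocDev : TopLocDevSpec p S` — local top-degree duality for all finite-dimensional
smooth modules from A4 (right exactness of `H²`) and A6 (the induced case `Ind_W μ`).

Abstract form (`topPair_bijective`): any level system `L` on a group `G` with normal cofinal
levels of finite index, a character `χ` trivial on some level, `inv : H²(ofChar χ) → k`.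
Proof: present `N` by `Q = Ind_W (twTriv χ N) ↠ N` (twisted augmentation); `topPair Q` is
bijective by coordinates (`Base.lean`); `topPair N` is onto because `charHom N ↪ charHom Q`
(`topPair_surjective_of_surjective`); it is injective by the four lemma
(`topPair_injective_of_ses`), using A4 and the surjectivity for `ker (Q → N)`.
(Exactness at `H²(Q)`, i.e. `LesMidSpec`, is not needed because `topPair Q` is injective.)
-/

set_option autoImplicit false
set_option linter.unusedSectionVars false
set_option linter.style.haveILetI false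

noncomputable section

namespace Fermat.Agent.S55.PT.H299

open Fermat.Agent.S55.PT groupCohomology ExtCitation

section Abstract

variable {k : Type} [Field k] {G : Type} [Group G] (L : LevelSys G) (χ : G →* kˣ)

/-- a normal level acts trivially on `Ind_W (twTriv χ N₀)` if `χ` is trivial on it -/
lemma indTw_ρ_eq_of_mem (W : Subgroup G) [W.Normal] (hχ : ∀ u ∈ W, χ u = 1)
    {N₀ : Type} [AddCommGroup N₀] [Module k N₀] (s : G) (hs : s ∈ W)
    (a : (G ⧸ W) →₀ N₀) : (indRep W (twTriv χ N₀)).ρ s a = a := by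
  have key : (indRep W (twTriv χ N₀)).ρ s = LinearMap.id := by
    apply Finsupp.lhom_ext
    intro x n
    induction x using QuotientGroup.induction_on with
    | H g =>
      rw [indRep_ρ_single, twTriv_ρ_apply, hχ s hs, Units.val_one, one_smul, LinearMap.id_apply]
      congr 1
      show ((s * g : G) : G ⧸ W) = (g : G ⧸ W)
      rw [QuotientGroup.eq]
      have h1 : g⁻¹ * s⁻¹ * g ∈ W := by
        have := (inferInstance : W.Normal).conj_mem s⁻¹ (W.inv_mem hs) g⁻¹
        simpa using this
      simpa [mul_assoc] using h1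
  rw [key]
  rfl

lemma exists_good_level (hNC : L.NormalCofinal) (hχ : ∃ V ∈ L.levels, ∀ u ∈ V, χ u = 1)
    (N : Rep.{0, 0, 0} k G) (hN : L.IsUSmooth N) :
    ∃ W ∈ L.levels, W.Normal ∧ (∀ u ∈ W, χ u = 1) ∧ (∀ u ∈ W, N.ρ u = 1) := by
  obtain ⟨V₁, hV₁, h1⟩ := hχ
  obtain ⟨V₂, hV₂, h2⟩ := hN
  obtain ⟨V₃, hV₃, hle⟩ := L.directed V₁ hV₁ V₂ hV₂
  obtain ⟨W, hW, hWle, hWn⟩ := hNC V₃ hV₃
  refine ⟨W, hW, hWn, fun u hu => h1 u (hle (hWle hu)).1, fun u hu => ?_⟩
  apply LinearMap.ext
  intro a
  exact h2 u (hle (hWle hu)).2 a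

variable (inv : L.H2 (ofChar χ) →ₗ[k] k)

/-- the hypotheses A6 (induced case) in abstract form -/
def IndCase : Prop :=
  ∀ W ∈ L.levels, W.Normal → (∀ s ∈ W, χ s = 1) →
    Function.Bijective (inv ∘ₗ pushAug L χ W)

/-- the hypothesis A4 (right exactness of `H²`) in abstract form -/
def RightExact : Prop :=
  ∀ (P N : Rep.{0, 0, 0} k G) (φ : P →ₗ[k] N) (hφ : IsEquivariant φ),
    FiniteDimensional k P → L.IsUSmooth P → L.IsUSmooth N →
    Function.Surjective φ → Function.Surjective (pushH2 φ hφ L)

variable {L χ inv}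

/-- the top pairing is surjective for every finite-dimensional smooth module -/
theorem topPair_surjective (hNC : L.NormalCofinal)
    (hχ : ∃ V ∈ L.levels, ∀ u ∈ V, χ u = 1) (hA6 : IndCase L χ inv)
    (N : Rep.{0, 0, 0} k G) [FiniteDimensional k N] (hN : L.IsUSmooth N) :
    Function.Surjective (topPair L χ inv N) := by
  obtain ⟨W, hW, hWn, hWχ, hWN⟩ := exists_good_level L χ hNC hχ N hN
  haveI := hWn
  exact topPair_surjective_of_surjective χ (Q := indRep W (twTriv χ N)) (N := N)
    (augTw χ W N) (augTw_equivariant χ W N hWχ hWN) L inv (augTw_surjective χ W N hWχ hWN)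
    (topPair_ind_bijective L χ inv W (hA6 W hW hWn hWχ)).2

/-- **D-T2a, abstract form.**  The top pairing is bijective for every finite-dimensional
smooth module. -/
theorem topPair_bijective (hNC : L.NormalCofinal) (hFI : L.FiniteIndex)
    (hχ : ∃ V ∈ L.levels, ∀ u ∈ V, χ u = 1) (hA6 : IndCase L χ inv) (hA4 : RightExact (k := k) L)
    (N : Rep.{0, 0, 0} k G) [FiniteDimensional k N] (hN : L.IsUSmooth N) :
    Function.Bijective (topPair L χ inv N) := by
  refine ⟨?_, topPair_surjective hNC hχ hA6 N hN⟩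
  obtain ⟨W, hW, hWn, hWχ, hWN⟩ := exists_good_level L χ hNC hχ N hN
  haveI := hWn
  haveI : W.FiniteIndex := hFI W hW
  haveI : Finite (G ⧸ W) := Subgroup.finite_quotient_of_finiteIndex
  have hQfd : FiniteDimensional k (indRep W (twTriv χ N)) :=
    (inferInstance : Module.Finite k ((G ⧸ W) →₀ N))
  have hQsm : L.IsUSmooth (indRep W (twTriv χ N)) :=
    ⟨W, hW, fun s hs a => indTw_ρ_eq_of_mem χ W hWχ s hs a⟩
  let E := twSES χ W N hWχ hWN
  have hRfd : FiniteDimensional k
      (kerRep (A := indRep W (twTriv χ N)) (B := N) (augTw χ W N)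
        (augTw_equivariant χ W N hWχ hWN)) :=
    (inferInstance : Module.Finite k ↥(LinearMap.ker (augTw χ W N)))
  have hRsm : L.IsUSmooth (kerRep (A := indRep W (twTriv χ N)) (B := N) (augTw χ W N)
      (augTw_equivariant χ W N hWχ hWN)) :=
    ⟨W, hW, fun s hs a => Subtype.ext (indTw_ρ_eq_of_mem χ W hWχ s hs (a : (G ⧸ W) →₀ N))⟩
  exact topPair_injective_of_ses χ E L inv
    (hA4 _ _ E.π E.hπ hQfd hQsm hN E.surj)
    (topPair_surjective hNC hχ hA6 _ hRsm)
    (topPair_ind_bijective L χ inv W (hA6 W hW hWn hWχ)).1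

end Abstract

section Concrete

variable (p : ℕ) [Fact p.Prime] (S : Finset Nat.Primes)

/-- the local cyclotomic character is trivial on a local level -/
lemma exists_level_cycloLoc (q : Nat.Primes) :
    ∃ V ∈ (localLevels q).levels, ∀ u ∈ V, cycloLoc p q u = 1 := by
  refine ⟨(Bridge.cycloLevel p).fixingSubgroup.comap (rl q),
    ⟨Bridge.cycloLevel p, Bridge.cycloLevel_finiteDimensional p, rfl⟩, fun u hu => ?_⟩
  exact Bridge.cycloChar_eq_one_of_mem_fixingSubgroup p (rl q u) hu

/-- **D-T2a.**  Local dévissage: A4 + A6 ⇒ local top duality for all finite-dimensional smooth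
modules. -/
theorem topLocDev : TopLocDevSpec p S := by
  intro _ hNC hFI inv hA6 hA4 v N hNfd hNsm
  haveI := hNfd
  refine topPair_bijective (L := localLevels v.1) (χ := cycloLoc p v.1) (inv := inv v)
    (hNC v.1) (hFI v.1) (exists_level_cycloLoc p v.1) ?_ ?_ N hNsm
  · intro W hW hWn hWχ
    refine hA6 v W hW hWn (fun s hs => ?_)
    apply LinearMap.ext
    intro c
    have h1 : (muLoc p v.1).ρ s c = ((cycloLoc p v.1 s : (ZMod p)ˣ) : ZMod p) * c :=
      ofChar_ρ_apply (cycloLoc p v.1) s c
    rw [h1, hWχ s hs, Units.val_one, one_mul]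
    rfl
  · intro P N φ hφ hP hPsm hNsm hsurj
    exact hA4 v.1 v.2 P N φ hφ hP hPsm hNsm hsurj

end Concrete

end Fermat.Agent.S55.PT.H299

end
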