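import Fermat.Agent.S55.PT.T2aH299.Dev

/-!
# S55 / layer D, leaf D-T2a: the base case `Q = Ind_W (twTriv χ N₀)`

If `inv ∘ aug_* : H²(Ind_W μ) → k` is bijective (`μ = ofChar χ`), then the top pairing of
`Ind_W (twTriv χ N₀)` is bijective for every finite-dimensional vector space `N₀`
(coordinates with respect to a basis of `N₀`).
-/

set_option autoImplicit false
set_option linter.unusedSectionVars false
set_option linter.unusedSimpArgs false

noncomputable section

namespace Fermat.Agent.S55.PT.H299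

open Fermat.Agent.S55.PT groupCohomology

variable {k : Type} [Field k] {G : Type} [Group G]

section Coord

variable (χ : G →* kˣ) (W : Subgroup G)

/-- every linear map is equivariant between twisted trivial modules -/
lemma twTriv_equivariant {N₀ N₁ : Type} [AddCommGroup N₀] [Module k N₀] [AddCommGroup N₁]
    [Module k N₁] (φ : N₀ →ₗ[k] N₁) :
    IsEquivariant (A := twTriv χ N₀) (B := twTriv χ N₁) φ := by
  intro g a
  rw [twTriv_ρ_apply, twTriv_ρ_apply, map_smul]

/-- `Ind_W` of a linear map between twisted trivial modules -/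
def indTw {N₀ N₁ : Type} [AddCommGroup N₀] [Module k N₀] [AddCommGroup N₁] [Module k N₁]
    (φ : N₀ →ₗ[k] N₁) : ((G ⧸ W) →₀ N₀) →ₗ[k] ((G ⧸ W) →₀ N₁) :=
  indMap W (M := twTriv χ N₀) (N := twTriv χ N₁) φ

lemma indTw_single {N₀ N₁ : Type} [AddCommGroup N₀] [Module k N₀] [AddCommGroup N₁]
    [Module k N₁] (φ : N₀ →ₗ[k] N₁) (x : G ⧸ W) (n : N₀) :
    indTw χ W φ (Finsupp.single x n) = Finsupp.single x (φ n) :=
  indMap_single W (M := twTriv χ N₀) (N := twTriv χ N₁) φ x n

lemma indTw_equivariant {N₀ N₁ : Type} [AddCommGroup N₀] [Module k N₀] [AddCommGroup N₁]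
    [Module k N₁] (φ : N₀ →ₗ[k] N₁) :
    IsEquivariant (A := indRep W (twTriv χ N₀)) (B := indRep W (twTriv χ N₁)) (indTw χ W φ) :=
  indMap_equivariant W (M := twTriv χ N₀) (N := twTriv χ N₁) φ (twTriv_equivariant χ φ)

end Coord

section Basis

variable (χ : G →* kˣ) (W : Subgroup G) {N₀ : Type} [AddCommGroup N₀] [Module k N₀]
  {ι : Type} [Fintype ι] [DecidableEq ι] (b : Module.Basis ι k N₀)

/-- the `i`-th coordinate `Ind_W (twTriv χ N₀) → Ind_W μ` -/
def coordP (i : ι) : ((G ⧸ W) →₀ N₀) →ₗ[k] ((G ⧸ W) →₀ k) :=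
  indTw χ W (b.coord i)

/-- the `i`-th inclusion `Ind_W μ → Ind_W (twTriv χ N₀)` -/
def coordQ (i : ι) : ((G ⧸ W) →₀ k) →ₗ[k] ((G ⧸ W) →₀ N₀) :=
  indTw χ W (LinearMap.toSpanSingleton k N₀ (b i))

lemma coordP_equivariant (i : ι) :
    IsEquivariant (A := indRep W (twTriv χ N₀)) (B := indRep W (ofChar χ)) (coordP χ W b i) :=
  indTw_equivariant χ W (b.coord i)

lemma coordQ_equivariant (i : ι) :
    IsEquivariant (A := indRep W (ofChar χ)) (B := indRep W (twTriv χ N₀)) (coordQ χ W b i) :=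
  indTw_equivariant χ W (LinearMap.toSpanSingleton k N₀ (b i))

lemma sum_coordQ_coordP :
    ∑ i : ι, (coordQ χ W b i) ∘ₗ (coordP χ W b i) = LinearMap.id := by
  apply Finsupp.lhom_ext
  intro x n
  rw [LinearMap.sum_apply]
  simp only [LinearMap.comp_apply, coordP, coordQ, indTw_single, LinearMap.id_apply,
    LinearMap.toSpanSingleton_apply, Module.Basis.coord_apply]
  rw [← Finsupp.single_finsetSum, b.sum_repr]

lemma coordP_coordQ (i j : ι) :
    (coordP χ W b j) ∘ₗ (coordQ χ W b i) = if i = j then LinearMap.id else 0 := by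
  apply Finsupp.lhom_ext
  intro x c
  simp only [LinearMap.comp_apply, coordP, coordQ, indTw_single,
    LinearMap.toSpanSingleton_apply, Module.Basis.coord_apply, map_smul, Module.Basis.repr_self,
    Finsupp.smul_apply, Finsupp.single_apply, smul_eq_mul]
  by_cases h : i = j
  · simp [h]
  · simp [h]

/-- `charHom χ (Ind_W μ)` is spanned by the augmentation -/
lemma charHom_ind_eq (h : ↥(charHom χ (indRep W (ofChar χ)))) (m : (G ⧸ W) →₀ k) :
    (h : Module.Dual k ((G ⧸ W) →₀ k)) m =
      (h : Module.Dual k ((G ⧸ W) →₀ k)) (Finsupp.single ((1 : G) : G ⧸ W) (1 : k)) *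
        indAug W (ofChar χ) m := by
  have key : (h : Module.Dual k ((G ⧸ W) →₀ k)) =
      ((h : Module.Dual k ((G ⧸ W) →₀ k)) (Finsupp.single ((1 : G) : G ⧸ W) (1 : k))) •
        (indAug W (ofChar χ) : ((G ⧸ W) →₀ k) →ₗ[k] k) := by
    apply Finsupp.lhom_ext
    intro x c
    induction x using QuotientGroup.induction_on with
    | H g =>
      have h1 := h.2 g (Finsupp.single ((1 : G) : G ⧸ W) (((χ g)⁻¹ : kˣ) : k))
      have h2 : (indRep W (ofChar χ)).ρ g
          (Finsupp.single ((1 : G) : G ⧸ W) (((χ g)⁻¹ : kˣ) : k) : (G ⧸ W) →₀ k) =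
          (Finsupp.single ((g : G) : G ⧸ W) (1 : k) : (G ⧸ W) →₀ k) := by
        rw [indRep_ρ_single, ofChar_ρ_apply]
        congr 1
        · show ((g * 1 : G) : G ⧸ W) = _
          rw [mul_one]
        · rw [← Units.val_mul, mul_inv_cancel, Units.val_one]
      rw [h2] at h1
      have e1 : (Finsupp.single ((g : G) : G ⧸ W) c : (G ⧸ W) →₀ k) =
          c • (Finsupp.single ((g : G) : G ⧸ W) (1 : k) : (G ⧸ W) →₀ k) := by
        rw [Finsupp.smul_single, smul_eq_mul, mul_one]
      have e2 : (Finsupp.single ((1 : G) : G ⧸ W) (((χ g)⁻¹ : kˣ) : k) : (G ⧸ W) →₀ k) =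
          (((χ g)⁻¹ : kˣ) : k) • (Finsupp.single ((1 : G) : G ⧸ W) (1 : k) : (G ⧸ W) →₀ k) := by
        rw [Finsupp.smul_single, smul_eq_mul, mul_one]
      rw [e2, map_smul, smul_eq_mul, ← mul_assoc, ← Units.val_mul, mul_inv_cancel,
        Units.val_one, one_mul] at h1
      rw [LinearMap.smul_apply, indAug_single, e1, map_smul, h1, smul_eq_mul, smul_eq_mul,
        mul_comm]
  conv_lhs => rw [key]
  rw [LinearMap.smul_apply, smul_eq_mul]

/-- the functional `aug ∘ coordP j ∈ charHom χ (Ind_W (twTriv χ N₀))` -/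
def coordF (j : ι) : ↥(charHom χ (indRep W (twTriv χ N₀))) :=
  ⟨(indAug W (ofChar χ)) ∘ₗ (coordP χ W b j), fun g q => by
    have h1 : coordP χ W b j ((indRep W (twTriv χ N₀)).ρ g q) =
        (indRep W (ofChar χ)).ρ g (coordP χ W b j q) := coordP_equivariant χ W b j g q
    have h2 : indAug W (ofChar χ) ((indRep W (ofChar χ)).ρ g (coordP χ W b j q)) =
        (ofChar χ).ρ g (indAug W (ofChar χ) (coordP χ W b j q)) :=
      indAug_equivariant W (ofChar χ) g (coordP χ W b j q)
    rw [LinearMap.comp_apply, h1, h2, ofChar_ρ_apply]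
    rfl⟩

lemma coe_coordF (j : ι) :
    ((coordF χ W b j : ↥(charHom χ (indRep W (twTriv χ N₀)))) :
      Module.Dual k ((G ⧸ W) →₀ N₀)) = (indAug W (ofChar χ)) ∘ₗ (coordP χ W b j) := rfl

/-- every `f ∈ charHom χ (Ind_W (twTriv χ N₀))` is a combination of the `coordF j` -/
lemma charHom_eq_sum_coordF (f : ↥(charHom χ (indRep W (twTriv χ N₀)))) :
    f = ∑ j : ι, ((f : Module.Dual k ((G ⧸ W) →₀ N₀))
      (coordQ χ W b j (Finsupp.single ((1 : G) : G ⧸ W) (1 : k)))) • coordF χ W b j := by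
  apply Subtype.ext
  apply LinearMap.ext
  intro q
  rw [Submodule.coe_sum, LinearMap.sum_apply]
  have h1 : q = ∑ j : ι, coordQ χ W b j (coordP χ W b j q) := by
    have := LinearMap.congr_fun (sum_coordQ_coordP χ W b) q
    rw [LinearMap.sum_apply] at this
    simpa using this.symm
  conv_lhs => rw [h1]
  rw [map_sum]
  refine Finset.sum_congr rfl fun j _ => ?_
  have h2 := charHom_ind_eq χ W
    (charPre χ (coordQ χ W b j) (coordQ_equivariant χ W b j) f) (coordP χ W b j q)
  rw [Submodule.coe_smul, LinearMap.smul_apply, coe_coordF, LinearMap.comp_apply, smul_eq_mul]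
  exact h2

end Basis

section BaseCase

variable (L : LevelSys G) (χ : G →* kˣ) (inv : L.H2 (ofChar χ) →ₗ[k] k) (W : Subgroup G)
  {N₀ : Type} [AddCommGroup N₀] [Module k N₀]
  {ι : Type} [Fintype ι] [DecidableEq ι] (b : Module.Basis ι k N₀)

/-- `(coordP j)_*` -/
def pushP (j : ι) : L.H2 (indRep W (twTriv χ N₀)) →ₗ[k] L.H2 (indRep W (ofChar χ)) :=
  pushH2 (A := indRep W (twTriv χ N₀)) (B := indRep W (ofChar χ)) (coordP χ W b j)
    (coordP_equivariant χ W b j) L

/-- `(coordQ i)_*` -/
def pushQ (i : ι) : L.H2 (indRep W (ofChar χ)) →ₗ[k] L.H2 (indRep W (twTriv χ N₀)) :=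
  pushH2 (A := indRep W (ofChar χ)) (B := indRep W (twTriv χ N₀)) (coordQ χ W b i)
    (coordQ_equivariant χ W b i) L

/-- `aug_*` -/
def pushAug : L.H2 (indRep W (ofChar χ)) →ₗ[k] L.H2 (ofChar χ) :=
  pushH2 (A := indRep W (ofChar χ)) (B := ofChar χ) (indAug W (ofChar χ))
    (indAug_equivariant W (ofChar χ)) L

lemma pushChar_coordF (j : ι) (x : L.H2 (indRep W (twTriv χ N₀))) :
    pushChar L χ (indRep W (twTriv χ N₀)) (coordF χ W b j) x =
      pushAug L χ W (pushP L χ W b j x) :=
  pushH2_comp (A := indRep W (twTriv χ N₀)) (B := indRep W (ofChar χ)) (C := ofChar χ) L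
    (coordP_equivariant χ W b j) (indAug_equivariant W (ofChar χ))
    (charHom_equivariant χ (indRep W (twTriv χ N₀)) (coordF χ W b j).2) x

lemma eq_sum_coord (x : L.H2 (indRep W (twTriv χ N₀))) :
    x = ∑ i : ι, pushQ L χ W b i (pushP L χ W b i x) := by
  have hid : IsEquivariant (A := indRep W (twTriv χ N₀)) (B := indRep W (twTriv χ N₀))
      (LinearMap.id : ((G ⧸ W) →₀ N₀) →ₗ[k] ((G ⧸ W) →₀ N₀)) := fun _ _ => rfl
  have hsum : IsEquivariant (A := indRep W (twTriv χ N₀)) (B := indRep W (twTriv χ N₀))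
      (∑ i : ι, (coordQ χ W b i) ∘ₗ (coordP χ W b i)) := by
    rw [sum_coordQ_coordP]
    exact hid
  have h1 : pushH2 (A := indRep W (twTriv χ N₀)) (B := indRep W (twTriv χ N₀))
      (∑ i : ι, (coordQ χ W b i) ∘ₗ (coordP χ W b i)) hsum L x = x := by
    rw [pushH2_congr (A := indRep W (twTriv χ N₀)) (B := indRep W (twTriv χ N₀)) L hsum hid
      (sum_coordQ_coordP χ W b) x]
    exact pushH2_id L hid x
  conv_lhs => rw [← h1]
  rw [pushH2_sum (A := indRep W (twTriv χ N₀)) (B := indRep W (twTriv χ N₀)) L Finset.univ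
    (fun i => (coordQ χ W b i) ∘ₗ (coordP χ W b i))
    (fun i => isEquivariant_comp (A := indRep W (twTriv χ N₀)) (B := indRep W (ofChar χ))
      (C := indRep W (twTriv χ N₀)) (coordP_equivariant χ W b i) (coordQ_equivariant χ W b i))]
  refine Finset.sum_congr rfl fun i _ => ?_
  exact pushH2_comp (A := indRep W (twTriv χ N₀)) (B := indRep W (ofChar χ))
    (C := indRep W (twTriv χ N₀)) L (coordP_equivariant χ W b i) (coordQ_equivariant χ W b i) _ x

lemma pushP_pushQ (i j : ι) (y : L.H2 (indRep W (ofChar χ))) :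
    pushP L χ W b j (pushQ L χ W b i y) = if i = j then y else 0 := by
  have hcomp := isEquivariant_comp (A := indRep W (ofChar χ)) (B := indRep W (twTriv χ N₀))
    (C := indRep W (ofChar χ)) (coordQ_equivariant χ W b i) (coordP_equivariant χ W b j)
  have h0 : pushP L χ W b j (pushQ L χ W b i y) =
      pushH2 (A := indRep W (ofChar χ)) (B := indRep W (ofChar χ))
        ((coordP χ W b j) ∘ₗ (coordQ χ W b i)) hcomp L y :=
    (pushH2_comp (A := indRep W (ofChar χ)) (B := indRep W (twTriv χ N₀))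
      (C := indRep W (ofChar χ)) L (coordQ_equivariant χ W b i) (coordP_equivariant χ W b j)
      hcomp y).symm
  rw [h0]
  by_cases h : i = j
  · have hid : IsEquivariant (A := indRep W (ofChar χ)) (B := indRep W (ofChar χ))
        (LinearMap.id : ((G ⧸ W) →₀ k) →ₗ[k] ((G ⧸ W) →₀ k)) := fun _ _ => rfl
    have e : (coordP χ W b j) ∘ₗ (coordQ χ W b i) = LinearMap.id := by
      rw [coordP_coordQ, if_pos h]
    rw [if_pos h, pushH2_congr (A := indRep W (ofChar χ)) (B := indRep W (ofChar χ)) L hcomp hid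
      e y]
    exact pushH2_id L hid y
  · have e : (coordP χ W b j) ∘ₗ (coordQ χ W b i) = 0 := by
      rw [coordP_coordQ, if_neg h]
    rw [if_neg h, pushH2_congr (A := indRep W (ofChar χ)) (B := indRep W (ofChar χ)) L hcomp
      isEquivariant_zero e y]
    obtain ⟨c, rfl⟩ := L.H2π_surjective _ y
    rw [pushH2_mk]
    have : pushZ2 (A := indRep W (ofChar χ)) (B := indRep W (ofChar χ))
        (0 : ((G ⧸ W) →₀ k) →ₗ[k] ((G ⧸ W) →₀ k)) isEquivariant_zero L c = 0 := by
      apply Subtype.ext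
      funext x
      rfl
    rw [this, map_zero]

variable (hA6 : Function.Bijective (inv ∘ₗ pushAug L χ W))

include hA6 b in
/-- base case, injectivity (with a chosen basis) -/
theorem topPair_ind_injective_aux :
    Function.Injective (topPair L χ inv (indRep W (twTriv χ N₀))) := by
  rw [injective_iff_map_eq_zero]
  intro x hx
  have hz : ∀ j : ι, pushP L χ W b j x = 0 := by
    intro j
    apply hA6.1
    rw [map_zero, LinearMap.comp_apply, ← pushChar_coordF, ← topPair_apply, hx]
    rfl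
  rw [eq_sum_coord L χ W b x]
  refine Finset.sum_eq_zero fun i _ => ?_
  rw [hz i, map_zero]

include hA6 b in
/-- base case, surjectivity (with a chosen basis) -/
theorem topPair_ind_surjective_aux :
    Function.Surjective (topPair L χ inv (indRep W (twTriv χ N₀))) := by
  intro ψ
  choose y hy using fun j : ι => hA6.2 (ψ (coordF χ W b j))
  refine ⟨∑ i : ι, pushQ L χ W b i (y i), ?_⟩
  have hj : ∀ j : ι, topPair L χ inv (indRep W (twTriv χ N₀))
      (∑ i : ι, pushQ L χ W b i (y i)) (coordF χ W b j) = ψ (coordF χ W b j) := by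
    intro j
    rw [topPair_apply, pushChar_coordF, map_sum]
    simp only [pushP_pushQ]
    rw [Finset.sum_ite_eq' Finset.univ j y, if_pos (Finset.mem_univ j)]
    exact hy j
  apply LinearMap.ext
  intro f
  obtain ⟨c, hc⟩ : ∃ c : ι → k, f = ∑ j : ι, c j • coordF χ W b j :=
    ⟨_, charHom_eq_sum_coordF χ W b f⟩
  subst hc
  generalize topPair L χ inv (indRep W (twTriv χ N₀))
    (∑ i : ι, pushQ L χ W b i (y i)) = Θ at hj ⊢
  rw [map_sum Θ, map_sum ψ]
  refine Finset.sum_congr rfl fun j _ => ?_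
  rw [map_smul Θ, map_smul ψ, hj j]

omit [Fintype ι] [DecidableEq ι] in
include hA6 in
/-- **Base case.**  If `inv ∘ aug_* : H²(Ind_W μ) → k` is bijective then the top pairing of
`Ind_W (twTriv χ N₀)` is bijective for every finite-dimensional `N₀`. -/
theorem topPair_ind_bijective [FiniteDimensional k N₀] :
    Function.Bijective (topPair L χ inv (indRep W (twTriv χ N₀))) := by
  classical
  exact ⟨topPair_ind_injective_aux L χ inv W (Module.finBasis k N₀) hA6,
    topPair_ind_surjective_aux L χ inv W (Module.finBasis k N₀) hA6⟩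

end BaseCase

end Fermat.Agent.S55.PT.H299

end
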