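import Fermat.Agent.S55.PT.T2aH299.Push

/-!
# S55 / layer D, leaf D-T2a: dévissage of the top pairing (abstract form)

For `φ : Q → N` equivariant, `charPre χ φ : charHom χ N → charHom χ Q`, `f ↦ f ∘ φ`, and
`topPair N (φ_* y) = (topPair Q y) ∘ charPre`.
* `topPair_surjective_of_surjective`: `φ` onto, `topPair Q` onto ⇒ `topPair N` onto.
* `topPair_injective_of_ses`: four lemma for `0 → R → Q → N → 0`.
-/

set_option autoImplicit false

noncomputable section

namespace Fermat.Agent.S55.PT.H299

open Fermat.Agent.S55.PT groupCohomology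

variable {k : Type} [Field k] {G : Type} [Group G]

section CharPre

variable (χ : G →* kˣ) {Q N : Rep.{0, 0, 0} k G} (φ : Q →ₗ[k] N) (hφ : IsEquivariant φ)

/-- precomposition with an equivariant map: `charHom χ N → charHom χ Q` -/
def charPre : ↥(charHom χ N) →ₗ[k] ↥(charHom χ Q) where
  toFun f := ⟨(f : Module.Dual k N) ∘ₗ φ, fun g q => by
    have h1 : φ (Q.ρ g q) = N.ρ g (φ q) := hφ g q
    rw [LinearMap.comp_apply, h1, f.2 g (φ q)]
    rfl⟩
  map_add' _ _ := rfl
  map_smul' _ _ := rfl

@[simp] lemma coe_charPre (f : ↥(charHom χ N)) :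
    ((charPre χ φ hφ f : ↥(charHom χ Q)) : Module.Dual k Q) = (f : Module.Dual k N) ∘ₗ φ := rfl

lemma charPre_injective (hsurj : Function.Surjective φ) :
    Function.Injective (charPre χ φ hφ) := by
  intro f f' h
  apply Subtype.ext
  apply LinearMap.ext
  intro n
  obtain ⟨q, rfl⟩ := hsurj n
  have h2 := congrArg (fun F : ↥(charHom χ Q) => (F : Module.Dual k Q) q) h
  exact h2

variable (L : LevelSys G)

lemma pushChar_charPre (f : ↥(charHom χ N)) (y : L.H2 Q) :
    pushChar L χ Q (charPre χ φ hφ f) y = pushChar L χ N f (pushH2 φ hφ L y) := by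
  obtain ⟨c, rfl⟩ := L.H2π_surjective Q y
  rfl

variable (inv : L.H2 (ofChar χ) →ₗ[k] k)

lemma topPair_push (y : L.H2 Q) (f : ↥(charHom χ N)) :
    topPair L χ inv N (pushH2 φ hφ L y) f = topPair L χ inv Q y (charPre χ φ hφ f) := by
  rw [topPair_apply, topPair_apply, pushChar_charPre]

include hφ in
/-- surjectivity of the top pairing passes to quotients -/
theorem topPair_surjective_of_surjective (hsurj : Function.Surjective φ)
    (hQ : Function.Surjective (topPair L χ inv Q)) :
    Function.Surjective (topPair L χ inv N) := by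
  intro ψ
  obtain ⟨r, hr⟩ := LinearMap.exists_leftInverse_of_injective (K := k)
    (V := ↥(charHom χ N)) (V' := ↥(charHom χ Q)) (charPre χ φ hφ)
    (LinearMap.ker_eq_bot.2 (charPre_injective χ φ hφ hsurj))
  obtain ⟨y, hy⟩ := hQ (ψ ∘ₗ r)
  refine ⟨pushH2 φ hφ L y, ?_⟩
  apply LinearMap.ext
  intro f
  rw [topPair_push, hy, LinearMap.comp_apply]
  have h2 := LinearMap.congr_fun hr f
  rw [LinearMap.comp_apply] at h2
  rw [h2]
  rfl

end CharPre

section Four

variable (χ : G →* kˣ) {R Q N : Rep.{0, 0, 0} k G} (E : SES R Q N)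

/-- left exactness of `charHom χ -` at the middle term -/
lemma charPre_exact (g : ↥(charHom χ Q)) (hg : charPre χ E.i E.hi g = 0) :
    ∃ f : ↥(charHom χ N), charPre χ E.π E.hπ f = g := by
  have hgi : ∀ r : R, (g : Module.Dual k Q) (E.i r) = 0 := fun r => by
    have h2 := congrArg (fun F : ↥(charHom χ R) => (F : Module.Dual k R) r) hg
    exact h2
  have hker : ∀ q : Q, E.π q = 0 → (g : Module.Dual k Q) q = 0 := by
    intro q hq
    have hq' : q ∈ LinearMap.range E.i := by
      rw [E.exact]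
      exact LinearMap.mem_ker.2 hq
    obtain ⟨r, rfl⟩ := hq'
    exact hgi r
  have hfac : ∀ q : Q, (g : Module.Dual k Q) (E.sec (E.π q)) = (g : Module.Dual k Q) q := by
    intro q
    have h1 : E.π (E.sec (E.π q) - q) = 0 := by rw [map_sub, E.π_sec, sub_self]
    have h2 := hker _ h1
    rw [map_sub, sub_eq_zero] at h2
    exact h2
  refine ⟨⟨(g : Module.Dual k Q) ∘ₗ E.sec, fun γ n => ?_⟩, ?_⟩
  · obtain ⟨q, rfl⟩ := E.surj n
    have h1 : N.ρ γ (E.π q) = E.π (Q.ρ γ q) := (E.hπ γ q).symm
    rw [h1, LinearMap.comp_apply, LinearMap.comp_apply, hfac, hfac]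
    exact g.2 γ q
  · apply Subtype.ext
    apply LinearMap.ext
    intro q
    exact hfac q

variable (L : LevelSys G) (inv : L.H2 (ofChar χ) →ₗ[k] k)

lemma pushH2_π_i (z : L.H2 R) : pushH2 E.π E.hπ L (pushH2 E.i E.hi L z) = 0 := by
  have hcomp : E.π ∘ₗ E.i = 0 := by
    apply LinearMap.ext
    intro r
    have : E.i r ∈ LinearMap.ker E.π := by
      rw [← E.exact]
      exact LinearMap.mem_range_self _ r
    exact LinearMap.mem_ker.1 this
  rw [← pushH2_comp L E.hi E.hπ (isEquivariant_comp E.hi E.hπ) z]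
  rw [pushH2_congr L (isEquivariant_comp E.hi E.hπ) isEquivariant_zero hcomp z]
  obtain ⟨c, rfl⟩ := L.H2π_surjective R z
  rw [pushH2_mk]
  have : pushZ2 (0 : R →ₗ[k] N) isEquivariant_zero L c = 0 := by
    apply Subtype.ext
    funext x
    rfl
  rw [this, map_zero]

/-- four lemma: injectivity of the top pairing for the quotient of a short exact sequence -/
theorem topPair_injective_of_ses
    (hsurjπ : Function.Surjective (pushH2 E.π E.hπ L))
    (hR : Function.Surjective (topPair L χ inv R))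
    (hQ : Function.Injective (topPair L χ inv Q)) :
    Function.Injective (topPair L χ inv N) := by
  rw [injective_iff_map_eq_zero]
  intro x hx
  obtain ⟨y, rfl⟩ := hsurjπ x
  -- `Θ = topPair Q y` vanishes on `ker (charPre i)`
  have hΘ : topPair L χ inv Q y ∈
      (LinearMap.ker (charPre χ E.i E.hi)).dualAnnihilator := by
    rw [Submodule.mem_dualAnnihilator]
    intro g hg
    obtain ⟨f, rfl⟩ := charPre_exact χ E g (LinearMap.mem_ker.1 hg)
    rw [← topPair_push, hx]
    rfl
  have hrange := LinearMap.range_dualMap_eq_dualAnnihilator_ker (K := k)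
    (V₁ := ↥(charHom χ Q)) (V₂ := ↥(charHom χ R)) (charPre χ E.i E.hi)
  rw [← hrange] at hΘ
  obtain ⟨φ, hφ⟩ := hΘ
  obtain ⟨z, rfl⟩ := hR φ
  have h1 : topPair L χ inv Q (pushH2 E.i E.hi L z) = topPair L χ inv Q y := by
    rw [← hφ]
    apply LinearMap.ext
    intro g
    rw [topPair_push]
    rfl
  rw [← hQ h1, pushH2_π_i]

end Four

end Fermat.Agent.S55.PT.H299

end
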