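import Fermat.Agent.S55.PT.Top

/-!
# S55 / layer D, leaf D-T2a: linearity of `pushH2` in the map

`pushH2L L A B : equivHom A B →ₗ[k] (H²(A) →ₗ[k] H²(B))`, so that push-forwards commute with finite
sums of equivariant maps.
-/

set_option autoImplicit false

noncomputable section

namespace Fermat.Agent.S55.PT.H299

open Fermat.Agent.S55.PT groupCohomology

variable {k : Type} [Field k] {G : Type} [Group G]

/-- the submodule of equivariant linear maps -/
def equivHom (A B : Rep.{0, 0, 0} k G) : Submodule k (A →ₗ[k] B) where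
  carrier := {φ | IsEquivariant φ}
  add_mem' hφ hψ := isEquivariant_add hφ hψ
  zero_mem' := isEquivariant_zero
  smul_mem' c _ hφ := isEquivariant_smul c hφ

lemma mem_equivHom {A B : Rep.{0, 0, 0} k G} (φ : A →ₗ[k] B) :
    φ ∈ equivHom A B ↔ IsEquivariant φ := Iff.rfl

variable (L : LevelSys G)

/-- `φ ↦ φ_*` as a linear map on equivariant maps -/
def pushH2L (A B : Rep.{0, 0, 0} k G) : ↥(equivHom A B) →ₗ[k] (L.H2 A →ₗ[k] L.H2 B) where
  toFun φ := pushH2 (φ : A →ₗ[k] B) φ.2 L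
  map_add' φ ψ := by
    apply LinearMap.ext
    intro x
    exact pushH2_add L φ.2 ψ.2 x
  map_smul' c φ := by
    apply LinearMap.ext
    intro x
    exact pushH2_smul L c φ.2 x

@[simp] lemma pushH2L_apply {A B : Rep.{0, 0, 0} k G} (φ : ↥(equivHom A B)) (x : L.H2 A) :
    pushH2L L A B φ x = pushH2 (φ : A →ₗ[k] B) φ.2 L x := rfl

lemma pushH2_id {A : Rep.{0, 0, 0} k G} (h : IsEquivariant (LinearMap.id : A →ₗ[k] A))
    (x : L.H2 A) : pushH2 (LinearMap.id : A →ₗ[k] A) h L x = x := by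
  obtain ⟨c, rfl⟩ := L.H2π_surjective A x
  rfl

/-- push-forward along a finite sum of equivariant maps -/
lemma pushH2_sum {A B : Rep.{0, 0, 0} k G} {ι : Type} (s : Finset ι) (φ : ι → A →ₗ[k] B)
    (hφ : ∀ i, IsEquivariant (φ i)) (h : IsEquivariant (∑ i ∈ s, φ i)) (x : L.H2 A) :
    pushH2 (∑ i ∈ s, φ i) h L x = ∑ i ∈ s, pushH2 (φ i) (hφ i) L x := by
  have h1 : (⟨∑ i ∈ s, φ i, h⟩ : ↥(equivHom A B)) = ∑ i ∈ s, ⟨φ i, hφ i⟩ := by
    apply Subtype.ext
    rw [Submodule.coe_sum]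
  have h2 : pushH2 (∑ i ∈ s, φ i) h L x =
      pushH2L L A B (⟨∑ i ∈ s, φ i, h⟩ : ↥(equivHom A B)) x := rfl
  rw [h2, h1, map_sum, LinearMap.sum_apply]
  rfl

end Fermat.Agent.S55.PT.H299

end
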